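import Fermat.Agent.S55.G.PL1H173.Surj
import Fermat.Agent.S55.L.RingOfIntegersUnique775

/-!
# S55 layer G, leaf G-PL1 (helper173): places above `S` = primes above `S`

* `primeAt_sPlaceSMul` : Galois equivariance of `𝔪 ↦ primeAt 𝔪`;
* `placePrimeEquiv S L : SPlace S L ≃ PrimeIn S L`;
* `placePrime : PlacePrimeSpec`   (**G-PL1**, unconditional).
-/

set_option autoImplicit false
set_option linter.unusedSectionVars false
set_option linter.style.haveILetI false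

open scoped NumberField TensorProduct
open IsDedekindDomain WithZero

namespace Fermat.Agent.S55.G.PL1H173

open Fermat.Agent.S55.G Fermat.Agent.S55.G.PL0H713

variable (S : Finset Nat.Primes) (L : Type) [Field L] [NumberField L]

/-! ### Intrinsic description of the ring of integers -/

/-- Integrality over `ℤ_S` in `L_𝔪` is membership in the ring of integers. -/
lemma mem_intRing_iff_zs (𝔪 : SPlace S L) (y : LocField S 𝔪) :
    y ∈ intRing S L 𝔪 ↔ ((LocField.mk S 𝔪).comp (zsIncl S L)).IsIntegralElem y := by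
  haveI : Fact (Nat.Prime ((primeOf S L 𝔪).1 : ℕ)) := ⟨(primeOf S L 𝔪).1.2⟩
  rw [mem_intRing_iff, mk_comp_zsIncl]
  constructor
  · rintro ⟨p, hp, hpz⟩
    have hsurj : Function.Surjective
        (Pi.evalRingHom (fun q : S => @PadicInt (q.1 : ℕ) ⟨q.1.2⟩) (primeOf S L 𝔪)) :=
      Function.surjective_eval _
    obtain ⟨P, hPmap, -, hPmonic⟩ :=
      Polynomial.lifts_and_degree_eq_and_monic (Polynomial.mem_lifts_of_surjective hsurj p) hp
    refine ⟨P, hPmonic, ?_⟩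
    rw [← Polynomial.eval₂_map, hPmap]
    exact hpz
  · rintro ⟨P, hP, hPz⟩
    refine ⟨P.map (Pi.evalRingHom (fun q : S => @PadicInt (q.1 : ℕ) ⟨q.1.2⟩) (primeOf S L 𝔪)),
      hP.map _, ?_⟩
    rw [Polynomial.eval₂_map]
    exact hPz

/-! ### Equivariance -/

section Equivariance

variable (G : Type) [Group G] [MulSemiringAction G L]

/-- Transfer of integrality along `g ⊗ 1`. -/
lemma locVal_toLoc_smul_le_one (𝔪₁ 𝔪₂ : SPlace S L) (g : G)
    (h : 𝔪₁.asIdeal ≤ Ideal.comap (asRingAut G S L g : AS S L →+* AS S L) 𝔪₂.asIdeal) (x : L)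
    (hx : locVal S L 𝔪₁ (toLoc S 𝔪₁ x) ≤ 1) : locVal S L 𝔪₂ (toLoc S 𝔪₂ (g • x)) ≤ 1 := by
  rw [locVal_le_one_iff, mem_intRing_iff_zs] at hx ⊢
  obtain ⟨P, hP, hPz⟩ := hx
  refine ⟨P, hP, ?_⟩
  let σ : LocField S 𝔪₁ →+* LocField S 𝔪₂ :=
    Ideal.quotientMap 𝔪₂.asIdeal (asRingAut G S L g : AS S L →+* AS S L) h
  have h1 : σ.comp ((LocField.mk S 𝔪₁).comp (zsIncl S L)) =
      (LocField.mk S 𝔪₂).comp (zsIncl S L) := by
    refine RingHom.ext fun u => ?_
    change Ideal.Quotient.mk _ (asRingAut G S L g (asIncl S L (zsToQS S u))) = _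
    rw [asRingAut_apply, asAut_asIncl]
    rfl
  have h2 : σ (toLoc S 𝔪₁ x) = toLoc S 𝔪₂ (g • x) := by
    change Ideal.Quotient.mk _ (asRingAut G S L g (asDiag S L x)) = _
    rw [asRingAut_apply, asAut_asDiag]
    rfl
  rw [← h1, ← h2, ← Polynomial.hom_eval₂, hPz, map_zero]

lemma le_comap_sPlaceSMul (𝔪 : SPlace S L) (g : G) :
    𝔪.asIdeal ≤ Ideal.comap (asRingAut G S L g : AS S L →+* AS S L)
      (sPlaceSMul S G g 𝔪).asIdeal := by
  intro a ha
  rw [Ideal.mem_comap]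
  exact Ideal.mem_map_of_mem _ ha

lemma sPlaceSMul_le_comap (𝔪 : SPlace S L) (g : G) :
    (sPlaceSMul S G g 𝔪).asIdeal ≤
      Ideal.comap (asRingAut G S L g⁻¹ : AS S L →+* AS S L) 𝔪.asIdeal := by
  intro a ha
  rw [Ideal.mem_comap]
  exact (mem_sPlaceSMul_iff S G g 𝔪 a).1 ha

/-- **Equivariance** of `𝔪 ↦ primeAt 𝔪`. -/
theorem primeAt_sPlaceSMul (g : G) (𝔪 : SPlace S L) :
    primeAt S L (sPlaceSMul S G g 𝔪) = primeSMul G g (primeAt S L 𝔪) := by
  symm
  apply HeightOneSpectrum.ext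
  refine Ideal.IsMaximal.eq_of_le (primeSMul G g (primeAt S L 𝔪)).isMaximal
    (primeAt S L (sPlaceSMul S G g 𝔪)).isPrime.ne_top ?_
  intro y hy
  rw [mem_primeSMul_iff] at hy
  rw [← locVal_toLoc_lt_one_iff] at hy ⊢
  by_contra hcon
  have h1 : locVal S L (sPlaceSMul S G g 𝔪) (toLoc S (sPlaceSMul S G g 𝔪) (y : L)) = 1 :=
    le_antisymm (locVal_toLoc_le_one S L _ y) (not_lt.1 hcon)
  have h2 : locVal S L (sPlaceSMul S G g 𝔪) (toLoc S (sPlaceSMul S G g 𝔪) (y : L)⁻¹) ≤ 1 := by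
    rw [map_inv₀, map_inv₀, h1, inv_one]
  have h3 := locVal_toLoc_smul_le_one S L G (sPlaceSMul S G g 𝔪) 𝔪 g⁻¹
    (sPlaceSMul_le_comap S L G 𝔪 g) _ h2
  have h4 : g⁻¹ • (y : L)⁻¹ = (((g⁻¹ • y : 𝓞 L) : L))⁻¹ :=
    map_inv₀ (MulSemiringAction.toRingHom G L g⁻¹) (y : L)
  rw [h4, map_inv₀, map_inv₀] at h3
  have hy0 : locVal S L 𝔪 (toLoc S 𝔪 ((g⁻¹ • y : 𝓞 L) : L)) ≠ 0 := by
    intro h0
    rw [h0, inv_zero] at h3
    rw [h0] at hy
    -- `g⁻¹ • y = 0`, so `y = 0`, contradicting `h1`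
    have h5 : toLoc S 𝔪 ((g⁻¹ • y : 𝓞 L) : L) = 0 := (Valuation.zero_iff _).1 h0
    have h6 : ((g⁻¹ • y : 𝓞 L) : L) = 0 := (toLoc S 𝔪).injective (h5.trans (map_zero _).symm)
    have h7 : (g⁻¹ • y : 𝓞 L) = 0 := by exact_mod_cast h6
    have h8 : y = 0 := by
      have := congrArg (fun t => g • t) h7
      simpa using this
    rw [h8] at h1
    simp at h1
  have h5 := (inv_le_one₀ (zero_lt_iff.2 hy0)).1 h3
  exact absurd hy (not_lt.2 h5)

end Equivariance

/-! ### The bijection and the frozen interface -/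

/-- The bijection between the places of `L ⊗ ℚ_S` and the primes of `𝓞 L` above `S`. -/
noncomputable def placePrimeEquiv : SPlace S L ≃ PrimeIn S L :=
  Equiv.ofBijective (fun 𝔪 => (⟨primeAt S L 𝔪, isAbove_primeAt S L 𝔪⟩ : PrimeIn S L))
    ⟨fun 𝔪 𝔪' h => primeAt_injective S L (congrArg Subtype.val h),
      fun w => by
        obtain ⟨𝔪, h𝔪⟩ := exists_place_of_isAbove S L w.1 w.2
        exact ⟨𝔪, Subtype.ext h𝔪⟩⟩

@[simp] lemma placePrimeEquiv_apply (𝔪 : SPlace S L) :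
    (placePrimeEquiv S L 𝔪).1 = primeAt S L 𝔪 := rfl

/-- Any ring of integers of `L_𝔪` is `intRing`. -/
lemma eq_intRing (𝔪 : SPlace S L) (A : ValuationSubring (LocField S 𝔪))
    (hA : Fermat.Agent.S55.L.IsLocalRingOfIntegers A) : A = intRing S L 𝔪 := by
  haveI := isLocalFld_locField S L 𝔪
  exact Fermat.Agent.S55.L.ringOfIntegersUnique775 (LocField S 𝔪) A (intRing S L 𝔪) hA
    (isLocalRingOfIntegers_intRing S L 𝔪)

/-- **G-PL1.**  The places above `S` are the primes above `S`. -/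
theorem placePrime : PlacePrimeSpec := by
  intro S L _ _
  refine ⟨placePrimeEquiv S L, ?_, ?_⟩
  · intro G _ _ g 𝔪
    exact primeAt_sPlaceSMul S L G g 𝔪
  · intro 𝔪 A hA x
    rw [eq_intRing S L 𝔪 A hA]
    exact mem_primeAt_iff S L 𝔪 x

end Fermat.Agent.S55.G.PL1H173
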