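import Fermat.Agent.S55.G.PL1H173.PrimeAt

/-!
# S55 layer G, leaf G-PL1 (helper173): coordinates on `L ⊗ ℚ_S` and `S`-integrality

* `co S L i : L ⊗ ℚ_S → ℚ_S`, the coordinates with respect to the integral basis of `L`;
* `IsSInt S y`: `y ∈ ℚ_S` is integral at every `q ∈ S`;
* `valuation_le_one_of_isSInt_co`: if all coordinates of `x ⊗ 1` (`x ∈ L`) are `S`-integral,
  then `x` is integral at every prime of `L` above `S`.
-/

set_option autoImplicit false
set_option linter.unusedSectionVars false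
set_option linter.style.haveILetI false

open scoped NumberField TensorProduct
open IsDedekindDomain

namespace Fermat.Agent.S55.G.PL1H173

open Fermat.Agent.S55.G Fermat.Agent.S55.G.PL0H713

variable (S : Finset Nat.Primes) (L : Type) [Field L] [NumberField L]

/-! ### Rational numbers -/

/-- A natural number lies in a prime of `𝓞 L` above `q` iff it is divisible by `q`. -/
lemma natCast_mem_iff (w : HeightOneSpectrum (𝓞 L)) {q : ℕ} (hq : q.Prime)
    (h : (q : 𝓞 L) ∈ w.asIdeal) (n : ℕ) : (n : 𝓞 L) ∈ w.asIdeal ↔ q ∣ n := by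
  constructor
  · intro hn
    by_contra hdvd
    have hcop : Nat.Coprime q n := (Nat.Prime.coprime_iff_not_dvd hq).2 hdvd
    have h1 : ((q : ℤ) * Nat.gcdA q n + (n : ℤ) * Nat.gcdB q n : ℤ) = 1 := by
      have := Nat.gcd_eq_gcd_ab q n
      rw [hcop] at this
      exact_mod_cast this.symm
    have h2 : ((1 : ℤ) : 𝓞 L) ∈ w.asIdeal := by
      rw [← h1]
      push_cast
      exact w.asIdeal.add_mem (w.asIdeal.mul_mem_right _ h) (w.asIdeal.mul_mem_right _ hn)
    rw [Int.cast_one] at h2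
    exact w.isPrime.ne_top ((Ideal.eq_top_iff_one _).2 h2)
  · rintro ⟨m, rfl⟩
    push_cast
    exact w.asIdeal.mul_mem_right _ h

/-- A rational number which is a `q`-adic integer has denominator prime to `q`. -/
lemma not_dvd_den_of_norm_le_one (q : ℕ) [Fact q.Prime] (r : ℚ) (hr : ‖(r : ℚ_[q])‖ ≤ 1) :
    ¬ q ∣ r.den := by
  intro hdvd
  have hnum : ¬ (q : ℤ) ∣ r.num := by
    intro h
    have h1 : q ∣ r.num.natAbs := Int.natCast_dvd.1 h
    have h2 := Nat.dvd_gcd h1 hdvd
    rw [r.reduced] at h2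
    exact (Fact.out : q.Prime).one_lt.ne' (Nat.dvd_one.1 h2)
  have h3 : ‖(r.num : ℚ_[q])‖ = 1 := by
    have hle := Padic.norm_int_le_one (p := q) r.num
    have hnlt : ¬ ‖(r.num : ℚ_[q])‖ < 1 := fun h => hnum (Padic.norm_intCast_lt_one_iff.1 h)
    exact le_antisymm hle (not_lt.1 hnlt)
  have h4 : ‖((r.den : ℤ) : ℚ_[q])‖ < 1 :=
    Padic.norm_intCast_lt_one_iff.2 (Int.natCast_dvd_natCast.2 hdvd)
  have hden0 : ((r.den : ℤ) : ℚ_[q]) ≠ 0 := by
    have := r.den_pos
    exact_mod_cast this.ne'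
  have h5 : (r : ℚ_[q]) * ((r.den : ℤ) : ℚ_[q]) = (r.num : ℚ_[q]) := by
    have := Rat.mul_den_eq_num r
    exact_mod_cast congrArg (fun t : ℚ => (t : ℚ_[q])) this
  have h6 := congrArg norm h5
  rw [norm_mul, h3] at h6
  have h7 : ‖(r : ℚ_[q])‖ * ‖((r.den : ℤ) : ℚ_[q])‖ < 1 := by
    calc ‖(r : ℚ_[q])‖ * ‖((r.den : ℤ) : ℚ_[q])‖ ≤ 1 * ‖((r.den : ℤ) : ℚ_[q])‖ :=
          mul_le_mul_of_nonneg_right hr (norm_nonneg _)
      _ < 1 := by rw [one_mul]; exact h4
  rw [h6] at h7
  exact lt_irrefl _ h7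

/-- A rational number which is a `q`-adic integer is integral at every prime of `L` above `q`. -/
lemma valuation_rat_le_one (w : HeightOneSpectrum (𝓞 L)) {q : ℕ} (hq : q.Prime)
    (h : (q : 𝓞 L) ∈ w.asIdeal) (r : ℚ)
    (hr : ‖(r : @Padic q ⟨hq⟩)‖ ≤ 1) : w.valuation L (algebraMap ℚ L r) ≤ 1 := by
  haveI : Fact q.Prime := ⟨hq⟩
  have hden := not_dvd_den_of_norm_le_one q r hr
  have h1 : (r.den : 𝓞 L) ∉ w.asIdeal := fun hmem => hden ((natCast_mem_iff L w hq h _).1 hmem)
  have h2 : w.valuation L (algebraMap (𝓞 L) L (r.den : 𝓞 L)) = 1 :=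
    (HeightOneSpectrum.valuation_eq_one_iff_notMem (K := L) w).2 h1
  have h3 : w.valuation L (algebraMap (𝓞 L) L (r.num : 𝓞 L)) ≤ 1 :=
    HeightOneSpectrum.valuation_le_one w _
  have h4 : algebraMap ℚ L r * algebraMap (𝓞 L) L (r.den : 𝓞 L) =
      algebraMap (𝓞 L) L (r.num : 𝓞 L) := by
    have := Rat.mul_den_eq_num r
    have h5 := congrArg (algebraMap ℚ L) this
    rw [map_mul] at h5
    simpa using h5
  have h6 := congrArg (w.valuation L) h4
  rw [map_mul, h2, mul_one] at h6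
  rw [h6]
  exact h3

/-! ### `S`-integers of `ℚ_S` -/

/-- `y ∈ ℚ_S` is integral at every `q ∈ S`. -/
def IsSInt (y : QS S) : Prop := ∀ q : S, ‖QS.toPi S y q‖ ≤ 1

variable {S} in
lemma IsSInt.add {y z : QS S} (hy : IsSInt S y) (hz : IsSInt S z) : IsSInt S (y + z) := by
  intro q
  haveI : Fact (Nat.Prime (q.1 : ℕ)) := ⟨q.1.2⟩
  have h : QS.toPi S (y + z) q = QS.toPi S y q + QS.toPi S z q := rfl
  rw [h]
  exact (Padic.nonarchimedean _ _).trans (max_le (hy q) (hz q))

variable {S} in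
lemma IsSInt.mul {y z : QS S} (hy : IsSInt S y) (hz : IsSInt S z) : IsSInt S (y * z) := by
  intro q
  haveI : Fact (Nat.Prime (q.1 : ℕ)) := ⟨q.1.2⟩
  have h : QS.toPi S (y * z) q = QS.toPi S y q * QS.toPi S z q := rfl
  rw [h, norm_mul]
  exact mul_le_one₀ (hy q) (norm_nonneg _) (hz q)

lemma isSInt_zero : IsSInt S 0 := by
  intro q
  haveI : Fact (Nat.Prime (q.1 : ℕ)) := ⟨q.1.2⟩
  have h : QS.toPi S (0 : QS S) q = 0 := rfl
  rw [h, norm_zero]
  exact zero_le_one

lemma isSInt_intCast (n : ℤ) : IsSInt S (algebraMap ℚ (QS S) (n : ℚ)) := by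
  intro q
  haveI : Fact (Nat.Prime (q.1 : ℕ)) := ⟨q.1.2⟩
  have h : QS.toPi S (algebraMap ℚ (QS S) (n : ℚ)) q = ((n : ℚ) : ℚ_[(q.1 : ℕ)]) := by
    have := (QS.proj S q).commutes (n : ℚ)
    rw [QS.proj_apply] at this
    rw [this, eq_ratCast]
  rw [h]
  have := Padic.norm_int_le_one (p := (q.1 : ℕ)) n
  simpa using this

lemma isSInt_sum {ι : Type*} (s : Finset ι) (f : ι → QS S) (h : ∀ i ∈ s, IsSInt S (f i)) :
    IsSInt S (∑ i ∈ s, f i) := by
  classical
  induction s using Finset.induction_on with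
  | empty => simpa using isSInt_zero S
  | insert a s ha ih =>
    rw [Finset.sum_insert ha]
    exact (h a (Finset.mem_insert_self a s)).add
      (ih (fun i hi => h i (Finset.mem_insert_of_mem hi)))

/-! ### Coordinates -/

/-- The index set of the integral basis. -/
abbrev Idx : Type := Module.Free.ChooseBasisIndex ℤ (𝓞 L)

/-- The coordinates on `L ⊗ ℚ_S` with respect to the integral basis of `L`. -/
noncomputable def co (i : Idx L) : AS S L →ₗ[ℚ] QS S :=
  (TensorProduct.lid ℚ (QS S)).toLinearMap ∘ₗ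
    (LinearMap.rTensor (QS S) ((NumberField.integralBasis L).coord i))

@[simp] lemma co_tmul (i : Idx L) (l : L) (y : QS S) :
    co S L i (l ⊗ₜ[ℚ] y) = ((NumberField.integralBasis L).repr l i) • y := by
  simp [co]

lemma co_mul_asIncl (i : Idx L) (c : AS S L) (y : QS S) :
    co S L i (c * asIncl S L y) = co S L i c * y := by
  induction c using TensorProduct.induction_on with
  | zero => simp
  | tmul l z =>
    have h : (l ⊗ₜ[ℚ] z : AS S L) * asIncl S L y = l ⊗ₜ[ℚ] (z * y) := by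
      change (l ⊗ₜ[ℚ] z : AS S L) * ((1 : L) ⊗ₜ[ℚ] y) = _
      rw [Algebra.TensorProduct.tmul_mul_tmul, mul_one]
    rw [h, co_tmul, co_tmul, smul_mul_assoc]
  | add a b ha hb => rw [add_mul, map_add, map_add, ha, hb, add_mul]

lemma co_asDiag (i : Idx L) (x : L) :
    co S L i (asDiag S L x) = algebraMap ℚ (QS S) ((NumberField.integralBasis L).repr x i) := by
  rw [asDiag_apply, co_tmul, Algebra.smul_def, mul_one]

/-- If all coordinates of `x ⊗ 1` are `S`-integral, then `x` is integral at every prime of `L`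
above `S`. -/
theorem valuation_le_one_of_isSInt_co (w : HeightOneSpectrum (𝓞 L)) (hw : IsAbove S L w) (x : L)
    (hx : ∀ i, IsSInt S (co S L i (asDiag S L x))) : w.valuation L x ≤ 1 := by
  obtain ⟨q, hqS, hq⟩ := hw
  have hrepr := (NumberField.integralBasis L).sum_repr x
  rw [← hrepr]
  apply Valuation.map_sum_le
  intro i _
  rw [Algebra.smul_def, map_mul]
  have h1 : w.valuation L (algebraMap ℚ L ((NumberField.integralBasis L).repr x i)) ≤ 1 := by
    apply valuation_rat_le_one L w q.2 hq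
    have h2 := hx i ⟨q, hqS⟩
    rw [co_asDiag] at h2
    have h3 : QS.toPi S (algebraMap ℚ (QS S) ((NumberField.integralBasis L).repr x i))
        ⟨q, hqS⟩ = (((NumberField.integralBasis L).repr x i : ℚ) : @Padic (q : ℕ) ⟨q.2⟩) := by
      have := (QS.proj S ⟨q, hqS⟩).commutes ((NumberField.integralBasis L).repr x i)
      rw [QS.proj_apply] at this
      rw [this, eq_ratCast]
    rw [h3] at h2
    exact h2
  have h4 : w.valuation L (NumberField.integralBasis L i) ≤ 1 := by
    rw [NumberField.integralBasis_apply]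
    exact HeightOneSpectrum.valuation_le_one w _
  exact mul_le_one' h1 h4

end Fermat.Agent.S55.G.PL1H173
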