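import Mathlib

/-!
# S55 layer G, leaf G-PL1 (helper173): the normalised valuation of a discrete valuation subring

Generic lemmas (Mathlib only):
* `dvrVal A : Valuation K ℤᵐ⁰` for a valuation subring `A` of `K` which is a DVR;
* `valuation_eq_of_isEquiv`: equivalent `ℤᵐ⁰`-valued valuations which both attain `exp (-1)`
  are equal.
-/

set_option autoImplicit false
set_option linter.unusedSectionVars false
set_option linter.style.haveILetI false

open IsDedekindDomain WithZero

namespace Fermat.Agent.S55.G.PL1H173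

section DvrVal

variable {K : Type} [Field K] (A : ValuationSubring K) [IsDiscreteValuationRing A]

/-- The normalised valuation of the discrete valuation subring `A`. -/
noncomputable def dvrVal : Valuation K ℤᵐ⁰ :=
  (IsDiscreteValuationRing.maximalIdeal A).valuation K

lemma heightOne_eq_maximalIdeal (v : HeightOneSpectrum A) :
    v = IsDiscreteValuationRing.maximalIdeal A := by
  apply HeightOneSpectrum.ext
  exact IsLocalRing.eq_maximalIdeal (v.isPrime.isMaximal v.ne_bot)

lemma dvrVal_le_one_iff (y : K) : dvrVal A y ≤ 1 ↔ y ∈ A := by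
  constructor
  · intro h
    have := HeightOneSpectrum.mem_integers_of_valuation_le_one (R := A) K y
      (fun v => by rw [heightOne_eq_maximalIdeal A v]; exact h)
    obtain ⟨z, rfl⟩ := this
    exact z.2
  · intro h
    exact HeightOneSpectrum.valuation_le_one (IsDiscreteValuationRing.maximalIdeal A)
      (⟨y, h⟩ : A)

lemma dvrVal_lt_one_iff (y : K) : dvrVal A y < 1 ↔ y ∈ A.nonunits := by
  rw [ValuationSubring.mem_nonunits_iff_exists_mem_maximalIdeal]
  constructor
  · intro h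
    have hy : y ∈ A := (dvrVal_le_one_iff A y).1 h.le
    refine ⟨hy, ?_⟩
    exact (HeightOneSpectrum.valuation_lt_one_iff_mem
      (IsDiscreteValuationRing.maximalIdeal A) (⟨y, hy⟩ : A)).1 h
  · rintro ⟨hy, h⟩
    exact (HeightOneSpectrum.valuation_lt_one_iff_mem
      (IsDiscreteValuationRing.maximalIdeal A) (⟨y, hy⟩ : A)).2 h

lemma dvrVal_eq_one_iff (y : K) : dvrVal A y = 1 ↔ y ∈ A ∧ y ∉ A.nonunits := by
  rw [← dvrVal_le_one_iff, ← dvrVal_lt_one_iff, not_lt]
  exact ⟨fun h => ⟨h.le, h.ge⟩, fun h => le_antisymm h.1 h.2⟩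

lemma exists_dvrVal_eq_exp_neg_one : ∃ π : K, dvrVal A π = exp (-1 : ℤ) :=
  HeightOneSpectrum.valuation_exists_uniformizer K (IsDiscreteValuationRing.maximalIdeal A)

end DvrVal

section Equiv

variable {F : Type} [Field F]

/-- Equivalent `ℤᵐ⁰`-valued valuations on a field which both attain the value `exp (-1)` are
equal. -/
theorem valuation_eq_of_isEquiv (V₁ V₂ : Valuation F ℤᵐ⁰) (h : V₁.IsEquiv V₂)
    (h₁ : ∃ x, V₁ x = exp (-1 : ℤ)) (h₂ : ∃ π, V₂ π = exp (-1 : ℤ)) : V₁ = V₂ := by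
  obtain ⟨π, hπ⟩ := h₂
  obtain ⟨x₁, hx₁⟩ := h₁
  have hπ0 : π ≠ 0 := by
    rintro rfl
    rw [map_zero] at hπ
    exact exp_ne_zero hπ.symm
  have hV1π : V₁ π ≠ 0 := (Valuation.ne_zero_iff V₁).2 hπ0
  -- key formula
  have key : ∀ x : F, x ≠ 0 → log (V₁ x) = log (V₁ π) * (- log (V₂ x)) := by
    intro x hx
    have hV2x : V₂ x ≠ 0 := (Valuation.ne_zero_iff V₂).2 hx
    have hV1x : V₁ x ≠ 0 := (Valuation.ne_zero_iff V₁).2 hx
    have h2 : V₂ (x * π ^ (log (V₂ x))) = 1 := by
      rw [map_mul, map_zpow₀, hπ, ← exp_zsmul, smul_eq_mul, mul_neg, mul_one]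
      conv_lhs => rw [← exp_log hV2x]
      rw [← exp_add, log_exp, add_neg_cancel, exp_zero]
    have h1 : V₁ (x * π ^ (log (V₂ x))) = 1 := (Valuation.isEquiv_iff_val_eq_one.1 h).2 h2
    rw [map_mul, map_zpow₀] at h1
    have h3 := congrArg log h1
    rw [log_mul hV1x (zpow_ne_zero _ hV1π), log_zpow, log_one, smul_eq_mul] at h3
    linarith [h3, mul_comm (log (V₁ π)) (log (V₂ x))]
  have hx₁0 : x₁ ≠ 0 := by
    rintro rfl
    rw [map_zero] at hx₁
    exact exp_ne_zero hx₁.symm
  have h4 := key x₁ hx₁0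
  rw [hx₁, log_exp] at h4
  have hlt : V₁ π < 1 := (Valuation.isEquiv_iff_val_lt_one.1 h).2 (by
    rw [hπ, ← exp_zero, exp_lt_exp]
    norm_num)
  have hneg : log (V₁ π) < 0 := by
    have := (log_lt_log hV1π one_ne_zero).2 hlt
    simpa using this
  have he : log (V₁ π) = -1 := by
    have hdvd : log (V₁ π) ∣ -1 := ⟨- log (V₂ x₁), h4⟩
    have h5 : log (V₁ π) ∣ 1 := (dvd_neg.1 hdvd)
    rcases Int.isUnit_iff.1 (isUnit_of_dvd_one h5) with h6 | h6
    · omega
    · exact h6
  ext x
  by_cases hx : x = 0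
  · subst hx
    simp
  · have hV2x : V₂ x ≠ 0 := (Valuation.ne_zero_iff V₂).2 hx
    have hV1x : V₁ x ≠ 0 := (Valuation.ne_zero_iff V₁).2 hx
    have h7 := key x hx
    rw [he] at h7
    have h8 : log (V₁ x) = log (V₂ x) := by linarith
    rw [← exp_log hV1x, ← exp_log hV2x, h8]

end Equiv

end Fermat.Agent.S55.G.PL1H173
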