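import Fermat.Agent.S55.G.PL1H173.PrimeAt
import Fermat.Agent.S55.G.PL1H173.DvrVal

/-!
# S55 layer G, leaf G-PL1 (helper173): density of `L` in `L_𝔪` and the valuation dictionary

* `locVal S L 𝔪` : the normalised valuation of the local field `L_𝔪`;
* `exists_approx₂` : simultaneous approximation of an element of `L ⊗ ℚ_S` by an element of `L`
  at two places above the same rational prime;
* `locVal_toLoc` : `locVal 𝔪 (toLoc 𝔪 x) = (primeAt 𝔪).valuation L x` (PL1-VAL).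
-/

set_option autoImplicit false
set_option linter.unusedSectionVars false
set_option linter.style.haveILetI false

open scoped NumberField TensorProduct
open IsDedekindDomain WithZero

namespace Fermat.Agent.S55.G.PL1H173

open Fermat.Agent.S55.G Fermat.Agent.S55.G.PL0H713

variable (S : Finset Nat.Primes) (L : Type) [Field L] [NumberField L]

/-- The normalised valuation of the local field `L_𝔪`. -/
noncomputable def locVal (𝔪 : SPlace S L) : Valuation (LocField S 𝔪) ℤᵐ⁰ :=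
  haveI := (isLocalRingOfIntegers_intRing S L 𝔪).1
  dvrVal (intRing S L 𝔪)

lemma locVal_le_one_iff (𝔪 : SPlace S L) (y : LocField S 𝔪) :
    locVal S L 𝔪 y ≤ 1 ↔ y ∈ intRing S L 𝔪 :=
  haveI := (isLocalRingOfIntegers_intRing S L 𝔪).1
  dvrVal_le_one_iff (intRing S L 𝔪) y

lemma locVal_lt_one_iff (𝔪 : SPlace S L) (y : LocField S 𝔪) :
    locVal S L 𝔪 y < 1 ↔ y ∈ (intRing S L 𝔪).nonunits :=
  haveI := (isLocalRingOfIntegers_intRing S L 𝔪).1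
  dvrVal_lt_one_iff (intRing S L 𝔪) y

lemma exists_locVal_eq_exp_neg_one (𝔪 : SPlace S L) :
    ∃ π : LocField S 𝔪, locVal S L 𝔪 π = exp (-1 : ℤ) :=
  haveI := (isLocalRingOfIntegers_intRing S L 𝔪).1
  exists_dvrVal_eq_exp_neg_one (intRing S L 𝔪)

/-- In `ℤᵐ⁰`, `x < 1` iff `x ≤ exp (-1)`. -/
lemma lt_one_iff_le_exp_neg_one (x : ℤᵐ⁰) : x < 1 ↔ x ≤ exp (-1 : ℤ) := by
  have h := lt_mul_exp_iff_le (x := x) (y := exp (-1 : ℤ)) exp_ne_zero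
  rw [← exp_add] at h
  simpa using h

lemma locVal_toLoc_le_one (𝔪 : SPlace S L) (x : 𝓞 L) : locVal S L 𝔪 (toLoc S 𝔪 (x : L)) ≤ 1 :=
  (locVal_le_one_iff S L 𝔪 _).2 (toLoc_mem_intRing S L 𝔪 x)

lemma locVal_toLoc_lt_one_iff (𝔪 : SPlace S L) (x : 𝓞 L) :
    locVal S L 𝔪 (toLoc S 𝔪 (x : L)) < 1 ↔ x ∈ (primeAt S L 𝔪).asIdeal := by
  rw [locVal_lt_one_iff, mem_primeAt_iff]

lemma locVal_natCast_primeOf (𝔪 : SPlace S L) :
    locVal S L 𝔪 (((primeOf S L 𝔪).1 : ℕ) : LocField S 𝔪) ≤ exp (-1 : ℤ) := by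
  rw [← lt_one_iff_le_exp_neg_one, locVal_lt_one_iff]
  exact natCast_primeOf_mem_nonunits S L 𝔪

/-- `ofQq` of a `q`-adically small element is small. -/
lemma locVal_ofQq_le (𝔪 : SPlace S L) (z : Qq (primeOf S L 𝔪).1) (k : ℕ)
    (hz : ‖z‖ ≤ (((primeOf S L 𝔪).1 : ℕ) : ℝ) ^ (-(k : ℤ))) :
    locVal S L 𝔪 (ofQq S L 𝔪 z) ≤ exp (-(k : ℤ)) := by
  haveI : Fact (Nat.Prime ((primeOf S L 𝔪).1 : ℕ)) := ⟨(primeOf S L 𝔪).1.2⟩
  have hz1 : ‖z‖ ≤ 1 := by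
    refine hz.trans ?_
    apply zpow_le_one_of_nonpos₀
    · exact_mod_cast (primeOf S L 𝔪).1.2.one_lt.le
    · simp
  have hmem := (PadicInt.norm_le_pow_iff_mem_span_pow (⟨z, hz1⟩ : ℤ_[((primeOf S L 𝔪).1 : ℕ)]) k).1 hz
  obtain ⟨u, hu⟩ := Ideal.mem_span_singleton'.1 hmem
  have hz2 : z = (u : ℚ_[((primeOf S L 𝔪).1 : ℕ)]) * (((primeOf S L 𝔪).1 : ℕ) : ℚ_[((primeOf S L 𝔪).1 : ℕ)]) ^ k := by
    have := congrArg (fun t : ℤ_[((primeOf S L 𝔪).1 : ℕ)] => (t : ℚ_[((primeOf S L 𝔪).1 : ℕ)])) hu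
    simpa using this.symm
  rw [hz2, map_mul, map_pow, ofQq_natCast, map_mul, map_pow]
  have h1 : locVal S L 𝔪 (ofQq S L 𝔪 (u : ℚ_[((primeOf S L 𝔪).1 : ℕ)])) ≤ 1 :=
    (locVal_le_one_iff S L 𝔪 _).2 (ofZq_mem_intRing S L 𝔪 u)
  have h2 : locVal S L 𝔪 (((primeOf S L 𝔪).1 : ℕ) : LocField S 𝔪) ^ k ≤ exp (-(k : ℤ)) := by
    have := pow_le_pow_left₀ zero_le (locVal_natCast_primeOf S L 𝔪) k
    refine this.trans (le_of_eq ?_)
    rw [← exp_nsmul]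
    simp
  calc _ ≤ 1 * exp (-(k : ℤ)) := mul_le_mul' h1 h2
    _ = _ := one_mul _

/-- Rational approximation in `ℚ_q`. -/
lemma exists_rat_close (q : S) (y : QS S) (k : ℕ) :
    ∃ r : ℚ, ‖QS.toPi S y q - (algebraMap ℚ (Qq q.1) r)‖ ≤ ((q.1 : ℕ) : ℝ) ^ (-(k : ℤ)) := by
  haveI : Fact (Nat.Prime (q.1 : ℕ)) := ⟨q.1.2⟩
  have hpos : (0 : ℝ) < ((q.1 : ℕ) : ℝ) ^ (-(k : ℤ)) :=
    zpow_pos (by exact_mod_cast q.1.2.pos) _
  obtain ⟨r, hr⟩ := Padic.rat_dense (q.1 : ℕ) (QS.toPi S y q) hpos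
  refine ⟨r, ?_⟩
  rw [eq_ratCast]
  exact hr.le

/-- Closeness in `ℚ_q` implies closeness in `L_𝔪`. -/
lemma locVal_ofQS_sub_le (𝔪 : SPlace S L) (q : S) (hq : primeOf S L 𝔪 = q) (y : QS S) (r : ℚ)
    (k : ℕ)
    (hr : ‖QS.toPi S y q - (algebraMap ℚ (Qq q.1) r)‖ ≤ ((q.1 : ℕ) : ℝ) ^ (-(k : ℤ))) :
    locVal S L 𝔪 (LocField.ofQS S 𝔪 y - toLoc S 𝔪 (algebraMap ℚ L r)) ≤ exp (-(k : ℤ)) := by
  subst hq
  rw [ofQS_eq, toLoc_algebraMap, ← map_sub]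
  exact locVal_ofQq_le S L 𝔪 _ k hr

lemma toLoc_injective (𝔪 : SPlace S L) : Function.Injective (toLoc S 𝔪) :=
  (toLoc S 𝔪).injective

/-- **Simultaneous approximation** of an element of `L ⊗ ℚ_S` by elements of `L` at two places
above the same rational prime. -/
theorem exists_approx₂ (𝔪 𝔪' : SPlace S L) (h : primeOf S L 𝔪' = primeOf S L 𝔪) (a : AS S L) :
    ∀ (γ γ' : ℤᵐ⁰), γ ≠ 0 → γ' ≠ 0 →
    ∃ x : L, locVal S L 𝔪 (LocField.mk S 𝔪 a - toLoc S 𝔪 x) < γ ∧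
      locVal S L 𝔪' (LocField.mk S 𝔪' a - toLoc S 𝔪' x) < γ' := by
  induction a using TensorProduct.induction_on with
  | zero =>
    intro γ γ' hγ hγ'
    refine ⟨0, ?_, ?_⟩
    · simpa using zero_lt_iff.2 hγ
    · simpa using zero_lt_iff.2 hγ'
  | tmul l y =>
    intro γ γ' hγ hγ'
    rcases eq_or_ne l 0 with rfl | hl
    · refine ⟨0, ?_, ?_⟩
      · simpa using zero_lt_iff.2 hγ
      · simpa using zero_lt_iff.2 hγ'
    have hc : locVal S L 𝔪 (toLoc S 𝔪 l) ≠ 0 :=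
      (Valuation.ne_zero_iff _).2 (fun h0 => hl (toLoc_injective S L 𝔪 (h0.trans (map_zero _).symm)))
    have hc' : locVal S L 𝔪' (toLoc S 𝔪' l) ≠ 0 :=
      (Valuation.ne_zero_iff _).2 (fun h0 => hl (toLoc_injective S L 𝔪' (h0.trans (map_zero _).symm)))
    obtain ⟨k, hk, hk'⟩ := exists_exp_neg_natCast_lt_and_lt
      (x := γ * (locVal S L 𝔪 (toLoc S 𝔪 l))⁻¹) (y := γ' * (locVal S L 𝔪' (toLoc S 𝔪' l))⁻¹)
      (mul_ne_zero hγ (inv_ne_zero hc)) (mul_ne_zero hγ' (inv_ne_zero hc'))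
    obtain ⟨r, hr⟩ := exists_rat_close S (primeOf S L 𝔪) y k
    have h1 := locVal_ofQS_sub_le S L 𝔪 (primeOf S L 𝔪) rfl y r k hr
    have h2 := locVal_ofQS_sub_le S L 𝔪' (primeOf S L 𝔪) h y r k hr
    refine ⟨l * algebraMap ℚ L r, ?_, ?_⟩
    · rw [mk_tmul, map_mul, ← mul_sub, map_mul]
      calc locVal S L 𝔪 (toLoc S 𝔪 l) *
            locVal S L 𝔪 (LocField.ofQS S 𝔪 y - toLoc S 𝔪 (algebraMap ℚ L r))
          ≤ locVal S L 𝔪 (toLoc S 𝔪 l) * exp (-(k : ℤ)) := mul_le_mul' le_rfl h1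
        _ < locVal S L 𝔪 (toLoc S 𝔪 l) * (γ * (locVal S L 𝔪 (toLoc S 𝔪 l))⁻¹) :=
            mul_lt_mul_of_pos_left hk (zero_lt_iff.2 hc)
        _ = γ := by rw [mul_comm γ, ← mul_assoc, mul_inv_cancel₀ hc, one_mul]
    · rw [mk_tmul, map_mul, ← mul_sub, map_mul]
      calc locVal S L 𝔪' (toLoc S 𝔪' l) *
            locVal S L 𝔪' (LocField.ofQS S 𝔪' y - toLoc S 𝔪' (algebraMap ℚ L r))
          ≤ locVal S L 𝔪' (toLoc S 𝔪' l) * exp (-(k : ℤ)) := mul_le_mul' le_rfl h2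
        _ < locVal S L 𝔪' (toLoc S 𝔪' l) * (γ' * (locVal S L 𝔪' (toLoc S 𝔪' l))⁻¹) :=
            mul_lt_mul_of_pos_left hk' (zero_lt_iff.2 hc')
        _ = γ' := by rw [mul_comm γ', ← mul_assoc, mul_inv_cancel₀ hc', one_mul]
  | add a b ha hb =>
    intro γ γ' hγ hγ'
    obtain ⟨x₁, h1, h1'⟩ := ha γ γ' hγ hγ'
    obtain ⟨x₂, h2, h2'⟩ := hb γ γ' hγ hγ'
    refine ⟨x₁ + x₂, ?_, ?_⟩
    · have : LocField.mk S 𝔪 (a + b) - toLoc S 𝔪 (x₁ + x₂) =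
          (LocField.mk S 𝔪 a - toLoc S 𝔪 x₁) + (LocField.mk S 𝔪 b - toLoc S 𝔪 x₂) := by
        rw [map_add, map_add]; ring
      rw [this]
      exact Valuation.map_add_lt _ h1 h2
    · have : LocField.mk S 𝔪' (a + b) - toLoc S 𝔪' (x₁ + x₂) =
          (LocField.mk S 𝔪' a - toLoc S 𝔪' x₁) + (LocField.mk S 𝔪' b - toLoc S 𝔪' x₂) := by
        rw [map_add, map_add]; ring
      rw [this]
      exact Valuation.map_add_lt _ h1' h2'

/-- Approximation at one place. -/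
theorem exists_approx (𝔪 : SPlace S L) (a : AS S L) (γ : ℤᵐ⁰) (hγ : γ ≠ 0) :
    ∃ x : L, locVal S L 𝔪 (LocField.mk S 𝔪 a - toLoc S 𝔪 x) < γ := by
  obtain ⟨x, hx, -⟩ := exists_approx₂ S L 𝔪 𝔪 rfl a γ γ hγ hγ
  exact ⟨x, hx⟩

/-! ### The valuation dictionary -/

/-- The pull-back of the local valuation to `L`. -/
noncomputable def pullVal (𝔪 : SPlace S L) : Valuation L ℤᵐ⁰ :=
  (locVal S L 𝔪).comap (toLoc S 𝔪)

lemma pullVal_apply (𝔪 : SPlace S L) (x : L) :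
    pullVal S L 𝔪 x = locVal S L 𝔪 (toLoc S 𝔪 x) := rfl

lemma pullVal_int_le_one (𝔪 : SPlace S L) (d : 𝓞 L) : pullVal S L 𝔪 (d : L) ≤ 1 :=
  locVal_toLoc_le_one S L 𝔪 d

lemma pullVal_int_lt_one_iff (𝔪 : SPlace S L) (d : 𝓞 L) :
    pullVal S L 𝔪 (d : L) < 1 ↔ d ∈ (primeAt S L 𝔪).asIdeal :=
  locVal_toLoc_lt_one_iff S L 𝔪 d

lemma pullVal_int_eq_one (𝔪 : SPlace S L) (d : 𝓞 L) (hd : d ∉ (primeAt S L 𝔪).asIdeal) :
    pullVal S L 𝔪 (d : L) = 1 :=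
  le_antisymm (pullVal_int_le_one S L 𝔪 d)
    (not_lt.1 (fun h => hd ((pullVal_int_lt_one_iff S L 𝔪 d).1 h)))

/-- The pulled back valuation is equivalent to the adic valuation of `primeAt 𝔪`. -/
theorem pullVal_isEquiv (𝔪 : SPlace S L) :
    (pullVal S L 𝔪).IsEquiv ((primeAt S L 𝔪).valuation L) := by
  rw [Valuation.isEquiv_iff_val_le_one]
  intro z
  constructor
  · intro hV
    by_contra hv
    rw [not_le] at hv
    have hz0 : z ≠ 0 := by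
      rintro rfl
      simp at hv
    have hv' : (primeAt S L 𝔪).valuation L z⁻¹ < 1 := by
      rw [map_inv₀]
      exact inv_lt_one_of_one_lt₀ hv
    obtain ⟨n, d, hnd⟩ :=
      HeightOneSpectrum.exists_primeCompl_mul_eq_of_integer (primeAt S L 𝔪) z⁻¹ hv'.le
    have hd1 : (primeAt S L 𝔪).valuation L (algebraMap (𝓞 L) L d) = 1 :=
      (HeightOneSpectrum.valuation_eq_one_iff_notMem (K := L) (primeAt S L 𝔪)).2 d.2
    have hn : n ∈ (primeAt S L 𝔪).asIdeal := by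
      have hn1 : (primeAt S L 𝔪).valuation L (algebraMap (𝓞 L) L n) < 1 := by
        rw [← hnd, map_mul, hd1, mul_one]
        exact hv'
      exact (HeightOneSpectrum.valuation_lt_one_iff_mem (K := L) (primeAt S L 𝔪) n).1 hn1
    have hVn : pullVal S L 𝔪 (algebraMap (𝓞 L) L n) < 1 :=
      (pullVal_int_lt_one_iff S L 𝔪 n).2 hn
    have hVd : pullVal S L 𝔪 (algebraMap (𝓞 L) L d) = 1 := pullVal_int_eq_one S L 𝔪 d d.2
    rw [← hnd, map_mul, hVd, mul_one, map_inv₀] at hVn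
    have hVz : pullVal S L 𝔪 z ≠ 0 := (Valuation.ne_zero_iff _).2 hz0
    have : 1 < pullVal S L 𝔪 z := by
      by_contra hcon
      rw [not_lt] at hcon
      have := (one_le_inv₀ (zero_lt_iff.2 hVz)).2 hcon
      exact absurd hVn (not_lt.2 this)
    exact absurd hV (not_le.2 this)
  · intro hv
    obtain ⟨n, d, hnd⟩ :=
      HeightOneSpectrum.exists_primeCompl_mul_eq_of_integer (primeAt S L 𝔪) z hv
    have hVd : pullVal S L 𝔪 (algebraMap (𝓞 L) L d) = 1 := pullVal_int_eq_one S L 𝔪 d d.2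
    have hVn : pullVal S L 𝔪 (algebraMap (𝓞 L) L n) ≤ 1 := pullVal_int_le_one S L 𝔪 n
    rw [← hnd, map_mul, hVd, mul_one] at hVn
    exact hVn

/-- `L` contains an element which is a uniformiser of `L_𝔪`. -/
lemma exists_pullVal_eq_exp_neg_one (𝔪 : SPlace S L) :
    ∃ x : L, pullVal S L 𝔪 x = exp (-1 : ℤ) := by
  obtain ⟨π, hπ⟩ := exists_locVal_eq_exp_neg_one S L 𝔪
  obtain ⟨a, rfl⟩ := LocField.mk_surjective S 𝔪 π
  obtain ⟨x, hx⟩ := exists_approx S L 𝔪 a (exp (-1 : ℤ)) exp_ne_zero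
  refine ⟨x, ?_⟩
  rw [pullVal_apply]
  have h1 : toLoc S 𝔪 x = LocField.mk S 𝔪 a - (LocField.mk S 𝔪 a - toLoc S 𝔪 x) := by ring
  rw [h1, Valuation.map_sub_eq_of_lt_left _ (by rw [hπ]; exact hx), hπ]

/-- **PL1-VAL.**  The normalised valuation of `L_𝔪` restricts on `L` to the normalised adic
valuation of the prime `primeAt 𝔪` (no ramification index appears). -/
theorem locVal_toLoc (𝔪 : SPlace S L) (x : L) :
    locVal S L 𝔪 (toLoc S 𝔪 x) = (primeAt S L 𝔪).valuation L x := by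
  have h := valuation_eq_of_isEquiv (pullVal S L 𝔪) ((primeAt S L 𝔪).valuation L)
    (pullVal_isEquiv S L 𝔪) (exists_pullVal_eq_exp_neg_one S L 𝔪)
    ((primeAt S L 𝔪).valuation_exists_uniformizer L)
  exact congrArg (fun V : Valuation L ℤᵐ⁰ => V x) h

end Fermat.Agent.S55.G.PL1H173
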