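import Fermat.Agent.S55.G.PL1H173.Dense

/-!
# S55 layer G, leaf G-PL1 (helper173): `primeAt` is injective

Two places of `L ⊗ ℚ_S` inducing the same prime of `𝓞 L` are equal.
-/

set_option autoImplicit false
set_option linter.unusedSectionVars false
set_option linter.style.haveILetI false

open scoped NumberField TensorProduct
open IsDedekindDomain WithZero

namespace Fermat.Agent.S55.G.PL1H173

open Fermat.Agent.S55.G Fermat.Agent.S55.G.PL0H713

variable (S : Finset Nat.Primes) (L : Type) [Field L] [NumberField L]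

lemma primeOf_eq_of_primeAt_eq (𝔪 𝔪' : SPlace S L) (h : primeAt S L 𝔪 = primeAt S L 𝔪') :
    primeOf S L 𝔪' = primeOf S L 𝔪 := by
  apply primeOf_eq_of_mem_primeAt
  rw [h]
  exact natCast_primeOf_mem_primeAt S L 𝔪'

lemma asIdeal_le_of_primeAt_eq (𝔪 𝔪' : SPlace S L) (h : primeAt S L 𝔪 = primeAt S L 𝔪') :
    𝔪.asIdeal ≤ 𝔪'.asIdeal := by
  intro a ha
  by_contra hne
  have h0 : LocField.mk S 𝔪 a = 0 := (LocField.mk_eq_zero_iff S 𝔪 a).2 ha
  have hγ : locVal S L 𝔪' (LocField.mk S 𝔪' a) ≠ 0 :=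
    (Valuation.ne_zero_iff _).2 (fun h1 => hne ((LocField.mk_eq_zero_iff S 𝔪' a).1 h1))
  obtain ⟨x, hx, hx'⟩ := exists_approx₂ S L 𝔪 𝔪' (primeOf_eq_of_primeAt_eq S L 𝔪 𝔪' h) a
    _ _ hγ hγ
  rw [h0, zero_sub, Valuation.map_neg, locVal_toLoc, h, ← locVal_toLoc] at hx
  have h2 : LocField.mk S 𝔪' a = (LocField.mk S 𝔪' a - toLoc S 𝔪' x) + toLoc S 𝔪' x := by ring
  have h3 := Valuation.map_add_lt _ hx' hx
  rw [← h2] at h3
  exact lt_irrefl _ h3

/-- **Injectivity** of `𝔪 ↦ primeAt 𝔪`. -/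
theorem primeAt_injective : Function.Injective (primeAt S L) := by
  intro 𝔪 𝔪' h
  apply MaximalSpectrum.ext
  haveI := 𝔪.isMaximal
  exact Ideal.IsMaximal.eq_of_le 𝔪.isMaximal 𝔪'.isMaximal.ne_top
    (asIdeal_le_of_primeAt_eq S L 𝔪 𝔪' h)

end Fermat.Agent.S55.G.PL1H173
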