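import Fermat.Agent.S55.G.PL1H173.Coord

/-!
# S55 layer G, leaf G-PL1 (helper173): integrality over `ℤ_S` in `L ⊗ ℚ_S`

* `ZS S = ∏_{q ∈ S} ℤ_q`, `zsIncl : ZS S →+* L ⊗ ℚ_S`;
* `exists_bound`: every element of `L ⊗ ℚ_S` has `S`-integral coordinates after multiplication
  by a non-zero natural number;
* `isIntegralElem_of_forall_mem_intRing`: an element which is integral at every place is
  integral over `ℤ_S`;
* `exists_bound_pow`: the powers of an element which is integral over `ℤ_S` have bounded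
  denominators.
-/

set_option autoImplicit false
set_option linter.unusedSectionVars false
set_option linter.style.haveILetI false

open scoped NumberField TensorProduct
open IsDedekindDomain

namespace Fermat.Agent.S55.G.PL1H173

open Fermat.Agent.S55.G Fermat.Agent.S55.G.PL0H713

variable (S : Finset Nat.Primes) (L : Type) [Field L] [NumberField L]

/-- `ℤ_S = ∏_{q ∈ S} ℤ_q`. -/
abbrev ZS : Type := ∀ q : S, @PadicInt (q.1 : ℕ) ⟨q.1.2⟩

/-- The inclusion `ℤ_S → ℚ_S`. -/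
noncomputable def zsToQS : ZS S →+* QS S :=
  ((QS.toPi S).symm : (∀ q : S, Qq q.1) →+* QS S).comp
    (RingHom.pi fun q : S =>
      (@PadicInt.Coe.ringHom (q.1 : ℕ) ⟨q.1.2⟩).comp
        (Pi.evalRingHom (fun q : S => @PadicInt (q.1 : ℕ) ⟨q.1.2⟩) q))

lemma toPi_zsToQS (u : ZS S) (q : S) :
    QS.toPi S (zsToQS S u) q = ((u q : @PadicInt (q.1 : ℕ) ⟨q.1.2⟩) : Qq q.1) := rfl

lemma isSInt_zsToQS (u : ZS S) : IsSInt S (zsToQS S u) := by
  intro q
  rw [toPi_zsToQS]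
  exact (u q).2

/-- The structure map `ℤ_S → L ⊗ ℚ_S`. -/
noncomputable def zsIncl : ZS S →+* AS S L :=
  ((asIncl S L : QS S →ₐ[ℚ] AS S L) : QS S →+* AS S L).comp (zsToQS S)

lemma zsIncl_apply (u : ZS S) : zsIncl S L u = asIncl S L (zsToQS S u) := rfl

lemma mk_comp_zsIncl (𝔪 : SPlace S L) :
    (LocField.mk S 𝔪).comp (zsIncl S L) =
      (ofZq S L 𝔪).comp
        (Pi.evalRingHom (fun q : S => @PadicInt (q.1 : ℕ) ⟨q.1.2⟩) (primeOf S L 𝔪)) := by
  refine RingHom.ext fun u => ?_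
  change LocField.ofQS S 𝔪 (zsToQS S u) = _
  rw [ofQS_eq, toPi_zsToQS]
  rfl

/-! ### Bounded denominators -/

lemma toPi_nsmul (D : ℕ) (y : QS S) (q : S) :
    QS.toPi S (D • y) q = (D : Qq q.1) * QS.toPi S y q := by
  rw [map_nsmul, Pi.smul_apply, nsmul_eq_mul]

lemma IsSInt.nsmul {y : QS S} (hy : IsSInt S y) (D : ℕ) : IsSInt S (D • y) := by
  intro q
  haveI : Fact (Nat.Prime (q.1 : ℕ)) := ⟨q.1.2⟩
  rw [toPi_nsmul, norm_mul]
  have h1 : ‖((D : ℕ) : ℚ_[(q.1 : ℕ)])‖ ≤ 1 := by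
    have := Padic.norm_int_le_one (p := (q.1 : ℕ)) (D : ℤ)
    simpa using this
  exact mul_le_one₀ h1 (norm_nonneg _) (hy q)

/-- Clearing the denominators of an element of `ℚ_S` at a finite set of primes. -/
lemma exists_nsmul_norm_le_one (y : QS S) (T : Finset S) :
    ∃ D : ℕ, D ≠ 0 ∧ ∀ q ∈ T, ‖QS.toPi S (D • y) q‖ ≤ 1 := by
  classical
  induction T using Finset.induction_on with
  | empty => exact ⟨1, one_ne_zero, fun q hq => absurd hq (Finset.notMem_empty q)⟩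
  | insert q₀ T hq₀ ih =>
    obtain ⟨D, hD0, hD⟩ := ih
    haveI : Fact (Nat.Prime (q₀.1 : ℕ)) := ⟨q₀.1.2⟩
    have h1 : (1 : ℝ) < ((q₀.1 : ℕ) : ℝ) := by exact_mod_cast q₀.1.2.one_lt
    obtain ⟨e, he⟩ := pow_unbounded_of_one_lt ‖QS.toPi S y q₀‖ h1
    refine ⟨D * (q₀.1 : ℕ) ^ e, mul_ne_zero hD0 (pow_ne_zero _ q₀.1.2.ne_zero), ?_⟩
    intro q hq
    haveI : Fact (Nat.Prime (q.1 : ℕ)) := ⟨q.1.2⟩
    rcases Finset.mem_insert.1 hq with rfl | hqT
    · rw [toPi_nsmul, norm_mul]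
      have h2 : ‖((D * (q.1 : ℕ) ^ e : ℕ) : ℚ_[(q.1 : ℕ)])‖ ≤ ((q.1 : ℕ) : ℝ) ^ (-(e : ℤ)) := by
        push_cast
        rw [norm_mul, Padic.norm_p_pow]
        have h3 : ‖((D : ℕ) : ℚ_[(q.1 : ℕ)])‖ ≤ 1 := by
          have := Padic.norm_int_le_one (p := (q.1 : ℕ)) (D : ℤ)
          simpa using this
        calc ‖((D : ℕ) : ℚ_[(q.1 : ℕ)])‖ * ((q.1 : ℕ) : ℝ) ^ (-(e : ℤ))
            ≤ 1 * ((q.1 : ℕ) : ℝ) ^ (-(e : ℤ)) :=
              mul_le_mul_of_nonneg_right h3 (zpow_nonneg (by positivity) _)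
          _ = _ := one_mul _
      have hpos : (0 : ℝ) < ((q.1 : ℕ) : ℝ) ^ e := pow_pos (by linarith) _
      calc ‖((D * (q.1 : ℕ) ^ e : ℕ) : ℚ_[(q.1 : ℕ)])‖ * ‖QS.toPi S y q‖
          ≤ ((q.1 : ℕ) : ℝ) ^ (-(e : ℤ)) * ((q.1 : ℕ) : ℝ) ^ e :=
            mul_le_mul h2 he.le (norm_nonneg _) (zpow_nonneg (by positivity) _)
        _ = 1 := by
          rw [zpow_neg, zpow_natCast, inv_mul_cancel₀ hpos.ne']
    · have h4 := hD q hqT
      rw [mul_comm, mul_smul, toPi_nsmul, norm_mul]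
      have h5 : ‖(((q₀.1 : ℕ) ^ e : ℕ) : ℚ_[(q.1 : ℕ)])‖ ≤ 1 := by
        have := Padic.norm_int_le_one (p := (q.1 : ℕ)) (((q₀.1 : ℕ) ^ e : ℕ) : ℤ)
        simpa using this
      exact mul_le_one₀ h5 (norm_nonneg _) h4

lemma exists_nsmul_isSInt (y : QS S) : ∃ D : ℕ, D ≠ 0 ∧ IsSInt S (D • y) := by
  obtain ⟨D, hD0, hD⟩ := exists_nsmul_norm_le_one S y Finset.univ
  exact ⟨D, hD0, fun q => hD q (Finset.mem_univ q)⟩

/-- Clearing the denominators of a finite family in `ℚ_S`. -/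
lemma exists_nsmul_isSInt_finset {ι : Type*} (s : Finset ι) (f : ι → QS S) :
    ∃ D : ℕ, D ≠ 0 ∧ ∀ i ∈ s, IsSInt S (D • f i) := by
  classical
  induction s using Finset.induction_on with
  | empty => exact ⟨1, one_ne_zero, fun i hi => absurd hi (Finset.notMem_empty i)⟩
  | insert a s ha ih =>
    obtain ⟨D, hD0, hD⟩ := ih
    obtain ⟨D', hD'0, hD'⟩ := exists_nsmul_isSInt S (f a)
    refine ⟨D * D', mul_ne_zero hD0 hD'0, ?_⟩
    intro i hi
    rcases Finset.mem_insert.1 hi with rfl | his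
    · rw [mul_smul]
      exact hD'.nsmul S D
    · rw [mul_comm, mul_smul]
      exact (hD i his).nsmul S D'

/-- `c` has `S`-integral coordinates after multiplication by `D`. -/
def Bdd (D : ℕ) (c : AS S L) : Prop := ∀ i, IsSInt S (co S L i (D • c))

lemma exists_bound (c : AS S L) : ∃ D : ℕ, D ≠ 0 ∧ Bdd S L D c := by
  obtain ⟨D, hD0, hD⟩ := exists_nsmul_isSInt_finset S Finset.univ (fun i => co S L i c)
  refine ⟨D, hD0, fun i => ?_⟩
  rw [map_nsmul]
  exact hD i (Finset.mem_univ i)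

lemma Bdd.mul_left {D : ℕ} {c : AS S L} (h : Bdd S L D c) (D' : ℕ) : Bdd S L (D' * D) c := by
  intro i
  rw [mul_smul, map_nsmul]
  exact (h i).nsmul S D'

/-! ### Integrality over `ℤ_S` -/

/-- An element of `L ⊗ ℚ_S` which is integral at every place is integral over `ℤ_S`. -/
theorem isIntegralElem_of_forall_mem_intRing (β : AS S L)
    (h : ∀ 𝔪 : SPlace S L, LocField.mk S 𝔪 β ∈ intRing S L 𝔪) :
    (zsIncl S L).IsIntegralElem β := by
  classical
  haveI : Finite (SPlace S L) := finite_sPlace S L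
  letI : Fintype (SPlace S L) := Fintype.ofFinite _
  haveI := isArtinianRing_AS S L
  -- local polynomials
  have hloc : ∀ 𝔪 : SPlace S L, ∃ P : Polynomial (ZS S), P.Monic ∧
      Polynomial.eval₂ (zsIncl S L) β P ∈ 𝔪.asIdeal := by
    intro 𝔪
    haveI : Fact (Nat.Prime ((primeOf S L 𝔪).1 : ℕ)) := ⟨(primeOf S L 𝔪).1.2⟩
    obtain ⟨p, hp, hpz⟩ := (mem_intRing_iff S L 𝔪 _).1 (h 𝔪)
    have hsurj : Function.Surjective
        (Pi.evalRingHom (fun q : S => @PadicInt (q.1 : ℕ) ⟨q.1.2⟩) (primeOf S L 𝔪)) :=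
      Function.surjective_eval _
    obtain ⟨P, hPmap, -, hPmonic⟩ :=
      Polynomial.lifts_and_degree_eq_and_monic (Polynomial.mem_lifts_of_surjective hsurj p) hp
    refine ⟨P, hPmonic, ?_⟩
    rw [← LocField.mk_eq_zero_iff, Polynomial.hom_eval₂, mk_comp_zsIncl, ← Polynomial.eval₂_map,
      hPmap]
    exact hpz
  choose P hPmonic hPmem using hloc
  -- the product lies in the Jacobson radical
  have hjac : Polynomial.eval₂ (zsIncl S L) β (∏ 𝔪, P 𝔪) ∈ Ideal.jacobson (⊥ : Ideal (AS S L)) := by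
    rw [Ideal.jacobson, Ideal.mem_sInf]
    rintro J ⟨-, hJ⟩
    let 𝔪₀ : SPlace S L := ⟨J, hJ⟩
    have h1 : LocField.mk S 𝔪₀ (Polynomial.eval₂ (zsIncl S L) β (∏ 𝔪, P 𝔪)) = 0 := by
      rw [Polynomial.eval₂_finsetProd, map_prod]
      exact Finset.prod_eq_zero (Finset.mem_univ 𝔪₀)
        ((LocField.mk_eq_zero_iff S 𝔪₀ _).2 (hPmem 𝔪₀))
    exact (LocField.mk_eq_zero_iff S 𝔪₀ _).1 h1
  obtain ⟨k, hk⟩ := IsArtinianRing.isNilpotent_jacobson_bot (R := AS S L)
  refine ⟨(∏ 𝔪, P 𝔪) ^ k, (Polynomial.monic_prod_of_monic _ _ (fun 𝔪 _ => hPmonic 𝔪)).pow k, ?_⟩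
  rw [Polynomial.eval₂_pow]
  have h2 := Ideal.pow_mem_pow hjac k
  rw [hk] at h2
  exact h2

/-- The powers of an element which is integral over `ℤ_S` have bounded denominators. -/
theorem exists_bound_pow (β : AS S L) (hβ : (zsIncl S L).IsIntegralElem β) :
    ∃ D : ℕ, D ≠ 0 ∧ ∀ j : ℕ, Bdd S L D (β ^ j) := by
  classical
  letI : Algebra (ZS S) (AS S L) := (zsIncl S L).toAlgebra
  have hint : IsIntegral (ZS S) β := hβ
  obtain ⟨t, ht⟩ := hint.fg_adjoin_singleton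
  choose Dfun hD0 hD using exists_bound S L
  -- the lattice of elements bounded by `D`
  let D : ℕ := ∏ g ∈ t, Dfun g
  have hD0' : D ≠ 0 := Finset.prod_ne_zero_iff.2 (fun g _ => hD0 g)
  let Lat : Submodule (ZS S) (AS S L) :=
    { carrier := {c | Bdd S L D c}
      add_mem' := fun {a b} ha hb i => by
        rw [smul_add, map_add]
        exact (ha i).add (hb i)
      zero_mem' := fun i => by
        rw [smul_zero, map_zero]
        exact isSInt_zero S
      smul_mem' := fun u c hc i => by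
        have h1 : (D • (u • c) : AS S L) = (D • c) * asIncl S L (zsToQS S u) := by
          change (D • (zsIncl S L u * c) : AS S L) = _
          rw [zsIncl_apply, mul_comm, smul_mul_assoc]
        rw [h1, co_mul_asIncl]
        exact (hc i).mul (isSInt_zsToQS S u) }
  have hsub : ∀ g ∈ t, g ∈ Lat := by
    intro g hg
    have h1 : D = (∏ g' ∈ t.erase g, Dfun g') * Dfun g := by
      rw [mul_comm]
      exact (Finset.mul_prod_erase t Dfun hg).symm
    change Bdd S L D g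
    rw [h1]
    exact (hD g).mul_left S L _
  have hle : Submodule.span (ZS S) (t : Set (AS S L)) ≤ Lat := Submodule.span_le.2 hsub
  refine ⟨D, hD0', fun j => ?_⟩
  have h2 : β ^ j ∈ (Algebra.adjoin (ZS S) {β}).toSubmodule :=
    Subalgebra.pow_mem _ (Algebra.self_mem_adjoin_singleton _ β) j
  rw [← ht] at h2
  exact hle h2

end Fermat.Agent.S55.G.PL1H173
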