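import Fermat.Agent.S55.G.PL0H713

/-!
# S55 layer G, leaf G-PL1 (helper173): the prime of `𝓞 L` below a place of `L ⊗ ℚ_S`

`primeAt S L 𝔪` is the contraction to `𝓞 L` of the maximal ideal of the ring of integers
`PL0H713.intRing S L 𝔪` of the local field `L_𝔪`.
-/

set_option autoImplicit false
set_option linter.unusedSectionVars false
set_option linter.style.haveILetI false

open scoped NumberField TensorProduct
open IsDedekindDomain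

namespace Fermat.Agent.S55.G.PL1H173

open Fermat.Agent.S55.G Fermat.Agent.S55.G.PL0H713

variable (S : Finset Nat.Primes) (L : Type) [Field L] [NumberField L]

/-- The structure map `ℤ_q → L_𝔪`. -/
noncomputable def ofZq (𝔪 : SPlace S L) :
    @PadicInt ((primeOf S L 𝔪).1 : ℕ) ⟨(primeOf S L 𝔪).1.2⟩ →+* LocField S 𝔪 :=
  haveI : Fact (Nat.Prime ((primeOf S L 𝔪).1 : ℕ)) := ⟨(primeOf S L 𝔪).1.2⟩
  (ofQq S L 𝔪).comp (algebraMap ℤ_[((primeOf S L 𝔪).1 : ℕ)] ℚ_[((primeOf S L 𝔪).1 : ℕ)])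

/-- Membership in the ring of integers of `L_𝔪`: integrality over `ℤ_q`. -/
lemma mem_intRing_iff (𝔪 : SPlace S L) (y : LocField S 𝔪) :
    y ∈ intRing S L 𝔪 ↔ (ofZq S L 𝔪).IsIntegralElem y := Iff.rfl

lemma ofZq_mem_intRing (𝔪 : SPlace S L)
    (u : @PadicInt ((primeOf S L 𝔪).1 : ℕ) ⟨(primeOf S L 𝔪).1.2⟩) :
    ofZq S L 𝔪 u ∈ intRing S L 𝔪 :=
  RingHom.isIntegralElem_map _

/-- Integers of `L` are integral in `L_𝔪`. -/
lemma toLoc_mem_intRing (𝔪 : SPlace S L) (x : 𝓞 L) : toLoc S 𝔪 (x : L) ∈ intRing S L 𝔪 := by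
  haveI : Fact (Nat.Prime ((primeOf S L 𝔪).1 : ℕ)) := ⟨(primeOf S L 𝔪).1.2⟩
  obtain ⟨P, hP, hx⟩ := x.2
  change (ofZq S L 𝔪).IsIntegralElem _
  refine ⟨P.map (Int.castRingHom ℤ_[((primeOf S L 𝔪).1 : ℕ)]), hP.map _, ?_⟩
  rw [Polynomial.eval₂_map]
  have h1 : (ofZq S L 𝔪).comp (Int.castRingHom ℤ_[((primeOf S L 𝔪).1 : ℕ)]) =
      (toLoc S 𝔪).comp (algebraMap ℤ L) := RingHom.ext_int _ _
  rw [h1, ← Polynomial.hom_eval₂]
  exact (congrArg (toLoc S 𝔪) hx).trans (map_zero _)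

/-- If `ofQq z` is integral then `z` is a `q`-adic integer. -/
lemma norm_le_one_of_ofQq_mem (𝔪 : SPlace S L) (z : Qq (primeOf S L 𝔪).1)
    (hz : ofQq S L 𝔪 z ∈ intRing S L 𝔪) : ‖z‖ ≤ 1 := by
  haveI : Fact (Nat.Prime ((primeOf S L 𝔪).1 : ℕ)) := ⟨(primeOf S L 𝔪).1.2⟩
  obtain ⟨p, hp, hz⟩ := (mem_intRing_iff S L 𝔪 _).1 hz
  have h2 : Polynomial.eval₂ (algebraMap ℤ_[((primeOf S L 𝔪).1 : ℕ)]
      ℚ_[((primeOf S L 𝔪).1 : ℕ)]) z p = 0 := by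
    apply (ofQq S L 𝔪).injective
    rw [Polynomial.hom_eval₂, map_zero]
    exact hz
  have h3 : IsIntegral ℤ_[((primeOf S L 𝔪).1 : ℕ)] z := ⟨p, hp, h2⟩
  obtain ⟨u, rfl⟩ := IsIntegrallyClosed.isIntegral_iff.1 h3
  exact u.2

lemma ofQq_natCast (𝔪 : SPlace S L) (n : ℕ) : ofQq S L 𝔪 (n : Qq (primeOf S L 𝔪).1) = n :=
  map_natCast _ n

/-- The residue characteristic is not a unit of the ring of integers. -/
lemma natCast_primeOf_mem_nonunits (𝔪 : SPlace S L) :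
    (((primeOf S L 𝔪).1 : ℕ) : LocField S 𝔪) ∈ (intRing S L 𝔪).nonunits := by
  haveI : Fact (Nat.Prime ((primeOf S L 𝔪).1 : ℕ)) := ⟨(primeOf S L 𝔪).1.2⟩
  rw [ValuationSubring.mem_nonunits_iff_or]
  right
  intro h
  have h1 : ofQq S L 𝔪 ((((primeOf S L 𝔪).1 : ℕ) : Qq (primeOf S L 𝔪).1)⁻¹) ∈
      intRing S L 𝔪 := by
    rw [map_inv₀, ofQq_natCast]
    exact h
  have h2 := norm_le_one_of_ofQq_mem S L 𝔪 _ h1
  rw [norm_inv, Padic.norm_p] at h2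
  have h3 : (1 : ℝ) < (((primeOf S L 𝔪).1 : ℕ) : ℝ) := by
    exact_mod_cast (primeOf S L 𝔪).1.2.one_lt
  rw [inv_inv] at h2
  linarith

/-- The ring homomorphism `𝓞 L → 𝒪_{L_𝔪}`. -/
noncomputable def toInt (𝔪 : SPlace S L) : 𝓞 L →+* (intRing S L 𝔪) :=
  ((toLoc S 𝔪).comp (algebraMap (𝓞 L) L)).codRestrict (intRing S L 𝔪).toSubring
    (fun x => toLoc_mem_intRing S L 𝔪 x)

@[simp] lemma coe_toInt (𝔪 : SPlace S L) (x : 𝓞 L) :
    ((toInt S L 𝔪 x : intRing S L 𝔪) : LocField S 𝔪) = toLoc S 𝔪 (x : L) := rfl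

/-- The prime of `𝓞 L` below the place `𝔪`. -/
noncomputable def primeAt (𝔪 : SPlace S L) : HeightOneSpectrum (𝓞 L) where
  asIdeal := Ideal.comap (toInt S L 𝔪) (IsLocalRing.maximalIdeal (intRing S L 𝔪))
  isPrime := Ideal.comap_isPrime _ _
  ne_bot := by
    intro h
    have hq : (((primeOf S L 𝔪).1 : ℕ) : 𝓞 L) ∈
        Ideal.comap (toInt S L 𝔪) (IsLocalRing.maximalIdeal (intRing S L 𝔪)) := by
      rw [Ideal.mem_comap, ← ValuationSubring.coe_mem_nonunits_iff, coe_toInt]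
      have := natCast_primeOf_mem_nonunits S L 𝔪
      simpa using this
    rw [h, Ideal.mem_bot] at hq
    have : ((primeOf S L 𝔪).1 : ℕ) = 0 := by exact_mod_cast hq
    exact (primeOf S L 𝔪).1.2.ne_zero this

lemma mem_primeAt_iff (𝔪 : SPlace S L) (x : 𝓞 L) :
    x ∈ (primeAt S L 𝔪).asIdeal ↔ toLoc S 𝔪 (x : L) ∈ (intRing S L 𝔪).nonunits := by
  change toInt S L 𝔪 x ∈ IsLocalRing.maximalIdeal (intRing S L 𝔪) ↔ _
  rw [← ValuationSubring.coe_mem_nonunits_iff, coe_toInt]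

lemma natCast_primeOf_mem_primeAt (𝔪 : SPlace S L) :
    (((primeOf S L 𝔪).1 : ℕ) : 𝓞 L) ∈ (primeAt S L 𝔪).asIdeal := by
  rw [mem_primeAt_iff]
  have := natCast_primeOf_mem_nonunits S L 𝔪
  simpa using this

lemma isAbove_primeAt (𝔪 : SPlace S L) : IsAbove S L (primeAt S L 𝔪) :=
  ⟨(primeOf S L 𝔪).1, (primeOf S L 𝔪).2, natCast_primeOf_mem_primeAt S L 𝔪⟩

/-- A prime ideal of `𝓞 L` contains at most one rational prime. -/
lemma prime_unique_of_mem (w : HeightOneSpectrum (𝓞 L)) {q q' : ℕ} (hq : q.Prime)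
    (hq' : q'.Prime) (h : (q : 𝓞 L) ∈ w.asIdeal) (h' : (q' : 𝓞 L) ∈ w.asIdeal) : q = q' := by
  by_contra hne
  have hcop : Nat.Coprime q q' := (Nat.coprime_primes hq hq').2 hne
  have h1 : ((q : ℤ) * Nat.gcdA q q' + (q' : ℤ) * Nat.gcdB q q' : ℤ) = 1 := by
    have := Nat.gcd_eq_gcd_ab q q'
    rw [hcop] at this
    exact_mod_cast this.symm
  have h2 : ((1 : ℤ) : 𝓞 L) ∈ w.asIdeal := by
    rw [← h1]
    push_cast
    exact w.asIdeal.add_mem (w.asIdeal.mul_mem_right _ h) (w.asIdeal.mul_mem_right _ h')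
  rw [Int.cast_one] at h2
  exact w.isPrime.ne_top ((Ideal.eq_top_iff_one _).2 h2)

lemma primeOf_eq_of_mem_primeAt (𝔪 : SPlace S L) (q : S)
    (h : ((q.1 : ℕ) : 𝓞 L) ∈ (primeAt S L 𝔪).asIdeal) : q = primeOf S L 𝔪 := by
  apply Subtype.ext
  apply Subtype.ext
  exact prime_unique_of_mem L (primeAt S L 𝔪) q.1.2 (primeOf S L 𝔪).1.2 h
    (natCast_primeOf_mem_primeAt S L 𝔪)

end Fermat.Agent.S55.G.PL1H173
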