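import Fermat.Agent.S55.G.PL1H173.Lattice
import Fermat.Agent.S55.G.PL1H173.Inj

/-!
# S55 layer G, leaf G-PL1 (helper173): every prime above `S` comes from a place

`exists_place_of_isAbove`: for every prime `w` of `𝓞 L` above `S` there is a place `𝔪` of
`L ⊗ ℚ_S` with `primeAt 𝔪 = w`.
-/

set_option autoImplicit false
set_option linter.unusedSectionVars false
set_option linter.style.haveILetI false

open scoped NumberField TensorProduct
open IsDedekindDomain WithZero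

namespace Fermat.Agent.S55.G.PL1H173

open Fermat.Agent.S55.G Fermat.Agent.S55.G.PL0H713

variable (S : Finset Nat.Primes) (L : Type) [Field L] [NumberField L]

/-- Prime avoidance: if no place induces `w`, some non-zero element of `w` is a unit at every
place. -/
lemma exists_mem_notMem_primeAt (w : HeightOneSpectrum (𝓞 L)) (hw : IsAbove S L w)
    (hne : ∀ 𝔪 : SPlace S L, primeAt S L 𝔪 ≠ w) :
    ∃ a : 𝓞 L, a ≠ 0 ∧ a ∈ w.asIdeal ∧ ∀ 𝔪 : SPlace S L, a ∉ (primeAt S L 𝔪).asIdeal := by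
  classical
  haveI : Finite (SPlace S L) := finite_sPlace S L
  letI : Fintype (SPlace S L) := Fintype.ofFinite _
  let s : Finset (HeightOneSpectrum (𝓞 L)) := Finset.univ.image (primeAt S L)
  have hav := Ideal.subset_union_prime (s := s) (f := fun v => v.asIdeal) w w
    (fun i _ _ _ => i.isPrime) (I := w.asIdeal)
  have hnot : ¬ ((w.asIdeal : Set (𝓞 L)) ⊆ ⋃ i ∈ (↑s : Set (HeightOneSpectrum (𝓞 L))),
      (i.asIdeal : Set (𝓞 L))) := by
    intro hsub
    obtain ⟨i, his, hle⟩ := hav.1 hsub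
    obtain ⟨𝔪, -, rfl⟩ := Finset.mem_image.1 his
    have heq : w.asIdeal = (primeAt S L 𝔪).asIdeal :=
      Ideal.IsMaximal.eq_of_le w.isMaximal (primeAt S L 𝔪).isPrime.ne_top hle
    exact hne 𝔪 (HeightOneSpectrum.ext heq.symm)
  obtain ⟨a, haw, hau⟩ := Set.not_subset.1 hnot
  have ha : ∀ 𝔪 : SPlace S L, a ∉ (primeAt S L 𝔪).asIdeal := by
    intro 𝔪 hmem
    apply hau
    simp only [Set.mem_iUnion]
    exact ⟨primeAt S L 𝔪, Finset.mem_coe.2 (Finset.mem_image_of_mem _ (Finset.mem_univ 𝔪)), hmem⟩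
  by_cases ha0 : a = 0
  · obtain ⟨q, -, hq⟩ := hw
    refine ⟨((q : ℕ) : 𝓞 L), ?_, hq, ?_⟩
    · exact_mod_cast q.2.ne_zero
    · intro 𝔪
      exact absurd (ha0 ▸ (primeAt S L 𝔪).asIdeal.zero_mem) (ha 𝔪)
  · exact ⟨a, ha0, haw, ha⟩

/-- **Surjectivity** of `𝔪 ↦ primeAt 𝔪` onto the primes above `S`. -/
theorem exists_place_of_isAbove (w : HeightOneSpectrum (𝓞 L)) (hw : IsAbove S L w) :
    ∃ 𝔪 : SPlace S L, primeAt S L 𝔪 = w := by
  by_contra hcon
  obtain ⟨a, ha0, haw, ha⟩ := exists_mem_notMem_primeAt S L w hw (fun 𝔪 h => hcon ⟨𝔪, h⟩)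
  have haL : (a : L) ≠ 0 := by
    intro h
    exact ha0 (by exact_mod_cast h)
  -- `a⁻¹ ⊗ 1` is integral at every place
  have hint : ∀ 𝔪 : SPlace S L, LocField.mk S 𝔪 (asDiag S L (a : L)⁻¹) ∈ intRing S L 𝔪 := by
    intro 𝔪
    rw [← locVal_le_one_iff]
    change locVal S L 𝔪 (toLoc S 𝔪 (a : L)⁻¹) ≤ 1
    rw [map_inv₀, map_inv₀]
    have h1 : locVal S L 𝔪 (toLoc S 𝔪 (a : L)) = 1 := pullVal_int_eq_one S L 𝔪 a (ha 𝔪)
    rw [h1, inv_one]
  obtain ⟨D, hD0, hD⟩ := exists_bound_pow S L _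
    (isIntegralElem_of_forall_mem_intRing S L _ hint)
  -- hence `D * a⁻ʲ` is integral at `w` for all `j`
  have hval : ∀ j : ℕ, w.valuation L ((D : L) * ((a : L)⁻¹) ^ j) ≤ 1 := by
    intro j
    apply valuation_le_one_of_isSInt_co S L w hw
    intro i
    have h1 : asDiag S L ((D : L) * ((a : L)⁻¹) ^ j) = D • (asDiag S L (a : L)⁻¹) ^ j := by
      rw [map_mul, map_pow, map_natCast, nsmul_eq_mul]
    rw [h1]
    exact hD j i
  -- contradiction
  have hva : w.valuation L (a : L) ≤ exp (-1 : ℤ) := by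
    rw [← lt_one_iff_le_exp_neg_one]
    exact (HeightOneSpectrum.valuation_lt_one_iff_mem (K := L) w a).2 haw
  have hva0 : w.valuation L (a : L) ≠ 0 := (Valuation.ne_zero_iff _).2 haL
  have hDL : (D : L) ≠ 0 := by exact_mod_cast hD0
  have hvD0 : w.valuation L (D : L) ≠ 0 := (Valuation.ne_zero_iff _).2 hDL
  obtain ⟨k, hk⟩ := exists_exp_neg_natCast_lt hvD0
  have h2 := hval k
  rw [map_mul, map_pow, map_inv₀] at h2
  have h3 : w.valuation L (D : L) ≤ (w.valuation L (a : L)) ^ k := by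
    have hpos : 0 < (w.valuation L (a : L)) ^ k := pow_pos (zero_lt_iff.2 hva0) k
    rw [inv_pow] at h2
    calc w.valuation L (D : L)
        = w.valuation L (D : L) * ((w.valuation L (a : L)) ^ k)⁻¹ * (w.valuation L (a : L)) ^ k := by
          rw [mul_assoc, inv_mul_cancel₀ hpos.ne', mul_one]
      _ ≤ 1 * (w.valuation L (a : L)) ^ k := mul_le_mul' h2 le_rfl
      _ = _ := one_mul _
  have h4 : (w.valuation L (a : L)) ^ k ≤ exp (-(k : ℤ)) := by
    have := pow_le_pow_left₀ zero_le hva k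
    refine this.trans (le_of_eq ?_)
    rw [← exp_nsmul]
    simp
  exact absurd (h3.trans h4) (not_le.2 hk)

end Fermat.Agent.S55.G.PL1H173
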